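import Mathlib
import Fermat.Agent.BR3.TorGlue

/-!
# Programme I, block B (Step B), node T1 (GOOD-REP), abstract half

`S : SS.SemistableSetup A π ι Ft ν` a semistable valued function field `F/K`, `m ≠ 0`.

From a good representative `(D, f, u)` of a class `z` in the sense of `BR3/TorGlue.IsGood`
(`D` supported on smooth places, `div (u v)` the reduction of `D` on `v`, `c_v · u v ^ m` a residue
of `f` on `v`) ONE constant multiple `c₀ • f` is integral on every component, a unit on every
component, with residues `a_v · u v ^ m` (`a_v` a nonzero constant), whose values at the two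
branches of every node agree (`BR3/TorGlue.exists_unit_const_of_smooth`: this is the point
"`β = 0`, `|c₁| = |c₂|`" without which `O(-D)` has no Runge section).

* `exists_normalised_of_isGood` : the statement above for one good representative;
* `exists_goodRep_strong` : for `z ∈ Filt.torSub S m`, from `TorGood S m`: `D`, `f`, `u` with all
  the properties (representative, smooth support, multidegree zero, `f` without zeros and poles at
  the non-smooth places, `f ∈ Oall`, unit residues `a_v · u v ^ m`, matching values at the nodes);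
* `exists_goodRep` : the literal asked for by the consumer (Step B top file):
  `∃ D f, IsRep m z D f ∧ (∀ P ∈ D.support, S.IsSmoothPlace P) ∧ f ∈ S.Oall ∧ ∀ v, S.resF v f ≠ 0`.
-/

set_option autoImplicit false
set_option linter.unusedVariables false
set_option linter.unusedSectionVars false
set_option linter.style.haveILetI false

namespace Fermat.Agent.FF3.GoodRep

open AlgebraicCurve Fermat.Agent.Red Fermat.Agent.BR.SS Fermat.Agent.BR2.Filt
  Fermat.Agent.BR3.TorGlue Fermat.Agent.X0

variable {K F k : Type*} [Field K] [Field F] [Algebra K F] [Field k]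
  {A : ValuationSubring K} {π : A →+* k} {ι : Type*} {Ft : ι → Type*}
  [∀ v, Field (Ft v)] [∀ v, Algebra k (Ft v)] {ν : Type*}
  {S : SemistableSetup (F := F) A π ι Ft ν}

/-- representatives are stable under multiplication of the function by a nonzero constant -/
theorem isRep_const_smul {m : ℕ} {z : Pic0 K F} {D : Divisor.degZero (K := K) (F := F)} {f : F}
    (h : IsRep m z D f) {c : K} (hc : c ≠ 0) : IsRep m z D (c • f) := by
  obtain ⟨hz, hf, hD⟩ := h
  refine ⟨hz, ?_, fun P => ?_⟩
  · rw [Algebra.smul_def]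
    exact mul_ne_zero ((map_ne_zero _).mpr hc) hf
  · rw [Fermat.Agent.Red.NormalForm.ord_const_smul P hc, hD P]

/-- the function of a representative with smooth divisor has no zeros or poles at the non-smooth
places -/
theorem ord_eq_zero_of_isRep {m : ℕ} {z : Pic0 K F} {D : Divisor.degZero (K := K) (F := F)}
    {f : F} (h : IsRep m z D f) (hD : ∀ P ∈ (D : Divisor K F).support, S.IsSmoothPlace P)
    (P : Place K F) (hP : ¬ S.IsSmoothPlace P) : P.ord f = 0 := by
  have h1 : (D : Divisor K F) P = 0 := by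
    by_contra hne
    exact hP (hD P (Finsupp.mem_support_iff.mpr hne))
  rw [← h.2.2 P, Finsupp.smul_apply, h1, smul_zero]

/-- the reduction of the divisor of a good representative has degree zero on every component -/
theorem degree_push_of_isGood (hFt : ∀ v, RiemannPkg k (Ft v)) {m : ℕ} {z : Pic0 K F}
    {D : Divisor.degZero (K := K) (F := F)} {f : F} {u : ∀ v, Ft v} (h : IsGood S m z D f u)
    (v : ι) : Divisor.degree (S.push (D : Divisor K F) v) = 0 := by
  letI := (hFt v).principal
  have : divOf k (u v) = S.push (D : Divisor K F) v :=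
    divOf_eq_of_forall fun Q => (h.ord_u v Q).symm
  rw [← this, degree_divOf]

/-- **Normalisation of a good representative**: ONE constant multiple of `f` is integral and a
unit on every component, with residues `a_v · u v ^ m`, matching at the nodes. -/
theorem exists_normalised_of_isGood (hFt : ∀ v, RiemannPkg k (Ft v)) (v₀ : ι) {m : ℕ}
    {z : Pic0 K F} {D : Divisor.degZero (K := K) (F := F)} {f : F} {u : ∀ v, Ft v}
    (h : IsGood S m z D f u) :
    ∃ c₀ : K, c₀ ≠ 0 ∧ IsGood S m z D (c₀ • f) u ∧ c₀ • f ∈ S.Oall ∧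
      (∀ v, ∃ a : k, a ≠ 0 ∧ S.resF v (c₀ • f) = algebraMap k (Ft v) a * u v ^ m) ∧
      S.MatchAt (S.resAll (c₀ • f)) := by
  choose c hc hres using h.res
  have hann : ∀ P, ¬ S.IsSmoothPlace P → P.ord f = 0 :=
    fun P hP => ord_eq_zero_of_isRep h.isRep h.smooth P hP
  have h1 : ∀ e, (S.s₁ e).ord (algebraMap k (Ft (S.src e)) (c (S.src e)) * u (S.src e) ^ m) = 0 := by
    intro e
    rw [(S.s₁ e).ord_mul ((map_ne_zero _).mpr (hc _)) (pow_ne_zero m (h.u_ne _)),
      Place.ord_algebraMap, zero_add, Place.ord_pow, h.ord_src e, mul_zero]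
  have h2 : ∀ e, (S.s₂ e).ord (algebraMap k (Ft (S.tgt e)) (c (S.tgt e)) * u (S.tgt e) ^ m) = 0 := by
    intro e
    rw [(S.s₂ e).ord_mul ((map_ne_zero _).mpr (hc _)) (pow_ne_zero m (h.u_ne _)),
      Place.ord_algebraMap, zero_add, Place.ord_pow, h.ord_tgt e, mul_zero]
  obtain ⟨c₀, hc₀, hmem, hσ, hmatch⟩ := exists_unit_const_of_smooth hFt v₀ hann
    (fun v => algebraMap k (Ft v) (c v) * u v ^ m) hres h1 h2
  have hσ' : ∀ v, ∃ a : k, a ≠ 0 ∧ S.resF v (c₀ • f) = algebraMap k (Ft v) a * u v ^ m := by
    intro v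
    obtain ⟨a, ha, hav⟩ := hσ v
    refine ⟨a * c v, mul_ne_zero ha (hc v), ?_⟩
    rw [hav, map_mul, mul_assoc]
  refine ⟨c₀, hc₀, ⟨isRep_const_smul h.isRep hc₀, h.smooth, h.u_ne, h.ord_u, fun v => ?_⟩, hmem,
    hσ', hmatch⟩
  obtain ⟨a, ha, hav⟩ := hσ' v
  have hO : c₀ • f ∈ S.O v := S.mem_O_of_mem_Oall hmem v
  refine ⟨a, ha, ?_, 1, one_ne_zero, by rwa [one_smul], ?_⟩
  · exact mul_ne_zero ((map_ne_zero _).mpr ha) (pow_ne_zero m (h.u_ne v))
  · have : (⟨(1 : K) • (c₀ • f), by rwa [one_smul]⟩ : S.O v) = ⟨c₀ • f, hO⟩ :=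
      Subtype.ext (one_smul K _)
    rw [this, ← S.resF_of_mem hO, hav]

/-- **(T1), strong form.** Every class of the toric part has a NORMALISED good representative:
`D` supported on smooth places and of multidegree zero, `f` integral and a unit on every
component, without zeros or poles at the non-smooth places, with residues `a_v · u v ^ m`
(`div (u v)` the reduction of `D`) whose values at the two branches of every node agree. -/
theorem exists_goodRep_strong (hFt : ∀ v, RiemannPkg k (Ft v)) (v₀ : ι) {m : ℕ}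
    (hTG : TorGood S m) {z : Pic0 K F} (hz : z ∈ torSub S m) :
    ∃ (D : Divisor.degZero (K := K) (F := F)) (f : F) (u : ∀ v, Ft v),
      IsGood S m z D f u ∧ f ∈ S.Oall ∧ (∀ v, S.resF v f ≠ 0) ∧
      (∀ v, Divisor.degree (S.push (D : Divisor K F) v) = 0) ∧
      (∀ P, ¬ S.IsSmoothPlace P → P.ord f = 0) ∧
      (∀ v, ∃ a : k, a ≠ 0 ∧ S.resF v f = algebraMap k (Ft v) a * u v ^ m) ∧
      S.MatchAt (S.resAll f) := by
  obtain ⟨D, f, u, h⟩ := hTG z hz
  obtain ⟨c₀, hc₀, hG, hmem, hσ, hmatch⟩ := exists_normalised_of_isGood hFt v₀ h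
  refine ⟨D, c₀ • f, u, hG, hmem, fun v => ?_, fun v => degree_push_of_isGood hFt hG v,
    fun P hP => ord_eq_zero_of_isRep hG.isRep hG.smooth P hP, hσ, hmatch⟩
  obtain ⟨a, ha, hav⟩ := hσ v
  rw [hav]
  exact mul_ne_zero ((map_ne_zero _).mpr ha) (pow_ne_zero m (h.u_ne v))

/-- **(T1), the consumer's literal.** Every class of the toric part has a representative
`(D, f)` with `D` supported on smooth places and `f` integral and a unit on EVERY component. -/
theorem exists_goodRep (hFt : ∀ v, RiemannPkg k (Ft v)) (v₀ : ι) {m : ℕ}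
    (hTG : TorGood S m) {z : Pic0 K F} (hz : z ∈ torSub S m) :
    ∃ (D : Divisor.degZero (K := K) (F := F)) (f : F), IsRep m z D f ∧
      (∀ P ∈ (D : Divisor K F).support, S.IsSmoothPlace P) ∧ f ∈ S.Oall ∧
      ∀ v, S.resF v f ≠ 0 := by
  obtain ⟨D, f, u, hG, hmem, hne, -⟩ := exists_goodRep_strong hFt v₀ hTG hz
  exact ⟨D, f, hG.isRep, hG.smooth, hmem, hne⟩

end Fermat.Agent.FF3.GoodRep
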