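import Mathlib
import Fermat.Agent.FF3.GoodRep.Abstract
import Fermat.Agent.BR3.ChartTorGood
import Fermat.Agent.BR3.CircleN.OfLevels
import Fermat.Agent.BR2.SetupOfData
import Fermat.Agent.Val.RiemannPkgBar

/-!
# Programme I, block B (Step B), node T1 (GOOD-REP), modular half

`Dt : Final.ModularData M q B hB hqM` (the named inputs of S34), `setup Dt` the two-component
semistable setup of `X₀(qM)` at `q` (`BR2/SetupOfData`), at a level `M` without elliptic points.

* `annulusChartN Dt e : CircleN.AnnulusChartN (setup Dt) e` : the annulus charts of the crossings,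
  from the level data `Dt.L`, `Dt.X`;
* `torGood_setup` : the moving lemma `TorGlue.TorGood (setup Dt) m` for every `m ≠ 0`
  (`BR3/ChartTorGood.torGood_of_charts`, `genus_eq Dt h2 h3`);
* **`exists_goodRep_setup`** : (T1) in the consumer's literal: every `x ∈ Filt.torSub (setup Dt) m`
  has a representative `(D, f)` with `D` supported on smooth places, `f ∈ (setup Dt).Oall` and
  `(setup Dt).resF v f ≠ 0` for BOTH components `v`;
* `exists_goodRep_setup_strong` : the same with the residue family `u`, multidegree zero, the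
  residues `a_v · u v ^ m` and the matching of the values at the crossings;
* `exists_goodRep_pow` : the instance `m = q ^ k` in the shape of the top literal `P.TorEps`.
-/

set_option autoImplicit false
set_option synthInstance.maxHeartbeats 400000
set_option linter.unusedSectionVars false
set_option linter.unusedVariables false
set_option linter.style.haveILetI false

namespace Fermat.Agent.FF3.GoodRep

open AlgebraicCurve ModularCurve IsLocalRing
open Fermat.Agent.Red Fermat.Agent.X0 Fermat.Agent.BR.SS
open Fermat.Agent.BR.S0 Fermat.Agent.BR.S0.RedModular Fermat.Agent.BR.S0.PointDict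
open Fermat.Agent.BR.S0.Modular Fermat.Agent.BR.S0.RedHyp Fermat.Agent.BR.Final
open Fermat.Agent.BR2 Fermat.Agent.BR2.SetupOfData Fermat.Agent.BR3.TorGlue Fermat.Agent.BR3.CircleN

variable {M q : ℕ} [NeZero M] [hq : Fact q.Prime]
variable {B : ValuationSubring (AlgebraicClosure ℚ)} {hB : B.LiesOverPrime q} {hqM : ¬ q ∣ M}
variable [IsAlgClosed (ResidueField B)]

local notation "kB" => IsLocalRing.ResidueField B
local notation "FtM" => modularFunctionFieldFullC (IsLocalRing.ResidueField B) M
local notation "Kb" => AlgebraicClosure ℚ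

variable (Dt : ModularData M q B hB hqM)

/-- the annulus chart of a crossing, from the level data of `Dt` -/
noncomputable def annulusChartN (e : Crossing (chartDataModular B hB hqM)) :
    AnnulusChartN (setup Dt) e :=
  (BranchDataN.ofBranchData (Dt.X (nonempty_crossing Dt) e)).annulusChartNOfLevels

/-- **The moving lemma on `setup Dt`** (level without elliptic points). -/
theorem torGood_setup (h2 : nuTwo M = 0) (h3 : nuThree M = 0) {m : ℕ} (hm : m ≠ 0) :
    TorGood (setup Dt) m := by
  letI := fintypeCrossing Dt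
  exact Fermat.Agent.BR3.ChartTorGood.torGood_of_charts (annulusChartN Dt) (isRankOne Dt)
    (Fermat.Agent.Val.riemannPkg_bar (M * q)) (riemannPkg Dt) (genus_eq Dt h2 h3) hm

/-- **(T1), strong form, on `setup Dt`.** -/
theorem exists_goodRep_setup_strong (h2 : nuTwo M = 0) (h3 : nuThree M = 0) {m : ℕ} (hm : m ≠ 0)
    {x : JZero (M * q)} (hx : x ∈ Filt.torSub (setup Dt) m) :
    ∃ (D : Divisor.degZero (K := Kb) (F := Fb (M * q))) (f : Fb (M * q)) (u : Fin 2 → FtM),
      IsGood (setup Dt) m x D f u ∧ f ∈ (setup Dt).Oall ∧ (∀ v, (setup Dt).resF v f ≠ 0) ∧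
      (∀ v, Divisor.degree ((setup Dt).push (D : Divisor Kb (Fb (M * q))) v) = 0) ∧
      (∀ P, ¬ (setup Dt).IsSmoothPlace P → P.ord f = 0) ∧
      (∀ v, ∃ a : kB, a ≠ 0 ∧ (setup Dt).resF v f = algebraMap kB FtM a * u v ^ m) ∧
      (setup Dt).MatchAt ((setup Dt).resAll f) :=
  exists_goodRep_strong (riemannPkg Dt) 0 (torGood_setup Dt h2 h3 hm) hx

/-- **(T1) on `setup Dt`**: every class of the toric part has a representative `(D, f)` with `D`
supported on smooth places and `f` integral and a unit on BOTH components. -/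
theorem exists_goodRep_setup (h2 : nuTwo M = 0) (h3 : nuThree M = 0) {m : ℕ} (hm : m ≠ 0)
    {x : JZero (M * q)} (hx : x ∈ Filt.torSub (setup Dt) m) :
    ∃ (D : Divisor.degZero (K := Kb) (F := Fb (M * q))) (f : Fb (M * q)),
      Filt.IsRep m x D f ∧
      (∀ P ∈ (D : Divisor Kb (Fb (M * q))).support, (setup Dt).IsSmoothPlace P) ∧
      f ∈ (setup Dt).Oall ∧ ∀ v, (setup Dt).resF v f ≠ 0 :=
  exists_goodRep (riemannPkg Dt) 0 (torGood_setup Dt h2 h3 hm) hx

/-- **(T1) at `m = q ^ k`**, the shape of the top literal. -/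
theorem exists_goodRep_pow (h2 : nuTwo M = 0) (h3 : nuThree M = 0) (k : ℕ)
    {x : JZero (M * q)} (hx : x ∈ Filt.torSub (setup Dt) (q ^ k)) :
    ∃ (D : Divisor.degZero (K := Kb) (F := Fb (M * q))) (f : Fb (M * q)),
      Filt.IsRep (q ^ k) x D f ∧
      (∀ P ∈ (D : Divisor Kb (Fb (M * q))).support, (setup Dt).IsSmoothPlace P) ∧
      f ∈ (setup Dt).Oall ∧ ∀ v, (setup Dt).resF v f ≠ 0 :=
  exists_goodRep_setup Dt h2 h3 (pow_ne_zero k hq.out.ne_zero) hx

end Fermat.Agent.FF3.GoodRep
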