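import Mathlib
import Fermat.Agent.FF3.StepB.Defs
import Fermat.Agent.Red.FFLemmas
import Fermat.Agent.Val.RiemannPkgBar

/-!
# Programme I, Step B assembly: the named hypothesis `StepB.RatLevels M q` (T2a, strong form)

Every place `P` of `F̄_N` over `ℚ̄` is RATIONAL over all large levels, in the strong sense of
helper22's `StepB.RatPlace`: for `Sl ⊇ S₀(P)` the values at `P` of ALL the functions of the level
field `FKs N (KS q Sl)` lie in the constants `KS q Sl` of the level.

* `exists_determining_pair` : a place of a function field with a Riemann package is the unique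
  common zero of two functions (a uniformiser `t₁` at `P` and a local parameter `t` at `P` which is
  a unit at the other zeros of `t₁`);
* `exists_level_fixing` : hence `P` is fixed by `Gal(ℚ̄ / KS q S₁)` for a level `S₁` over which
  `t₁`, `t` are rational;
* `isValueAt_mem_KS` : for such a `σ`-stable `P` the value at `P` of a function of the level field
  of `Sl ⊇ S₁` is fixed by `Gal(ℚ̄ / KS q Sl)`, hence lies in `KS q Sl` (infinite Galois theory);
* **`ratLevels : StepB.RatLevels M q`**.
-/

set_option autoImplicit false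
set_option synthInstance.maxHeartbeats 400000
set_option linter.unusedSectionVars false
set_option linter.unusedVariables false
set_option linter.style.haveILetI false

namespace Fermat.Agent.FF3.GoodRep

open AlgebraicCurve ModularCurve
open Fermat.Agent.Red Fermat.Agent.X0 Fermat.Agent.BR.Inst.Levels Fermat.Agent.BR.Inst.FKCover
  Fermat.Agent.BR.UnramCycloTower Fermat.Agent.BR.ValTwo Fermat.Agent.FF3.LevelDesc

local notation "GQ" => (AlgebraicClosure ℚ ≃ₐ[ℚ] AlgebraicClosure ℚ)

section Generic

variable {K F : Type*} [Field K] [Field F] [Algebra K F]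

/-- **A place is the unique common zero of two functions.** -/
theorem exists_determining_pair (hF : RiemannPkg K F) [Infinite K] (P : Place K F) :
    ∃ t₁ t : F, 0 < P.ord t₁ ∧ 0 < P.ord t ∧
      ∀ Q : Place K F, 0 < Q.ord t₁ → 0 < Q.ord t → Q = P := by
  classical
  haveI := hF.principal
  obtain ⟨t₁, ht₁⟩ := Fermat.Agent.Red.NormalForm.exists_ord_eq_one P
  obtain ⟨t, -, ht, hZ⟩ := exists_localParameter hF P (divOf K t₁).support
  refine ⟨t₁, t, by omega, by omega, fun Q h1 h2 => ?_⟩
  by_contra hQP
  have hQ : Q ∈ (divOf K t₁).support := by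
    rw [Finsupp.mem_support_iff, divOf_apply]
    omega
  have := hZ Q hQ hQP
  omega

end Generic

variable {N : ℕ} [NeZero N]

/-- **Every place is fixed by an open subgroup of the Galois group**: by the Galois group of the
constants of a level `S₁`. -/
theorem exists_level_fixing (q : ℕ) (P : Place Kb (Fb N)) :
    ∃ S₁ : Finset Kb, ∀ σ : GQ, (∀ c ∈ KS q S₁, σ c = c) → gal N σ • P = P := by
  classical
  obtain ⟨t₁, t, h1, h2, huniq⟩ :=
    exists_determining_pair (Fermat.Agent.Val.riemannPkg_bar N) P
  obtain ⟨S₁, -, -, hS₁⟩ := exists_level N q Nat.one_pos ({t₁, t} : Finset (Fb N)) ∅ ∅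
  obtain ⟨hT, -, -⟩ := hS₁ S₁ subset_rfl
  have ht₁ : t₁ ∈ FKs N (KS q S₁) := hT (by simp)
  have ht : t ∈ FKs N (KS q S₁) := hT (by simp)
  refine ⟨S₁, fun σ hσ => huniq _ ?_ ?_⟩
  · have e : gal N σ • t₁ = t₁ := gal_smul_eq_of_mem_FKs (KS q S₁) hσ ht₁
    have := SemilinearAut.ord_smul (gal N σ) P t₁
    rw [e] at this
    rw [this]
    exact h1
  · have e : gal N σ • t = t := gal_smul_eq_of_mem_FKs (KS q S₁) hσ ht
    have := SemilinearAut.ord_smul (gal N σ) P t
    rw [e] at this
    rw [this]
    exact h2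

/-- The value at a `Gal(ℚ̄/KS q S₁)`-stable place of a function of the level field of `Sl ⊇ S₁`
is a constant of the level `Sl`. -/
theorem isValueAt_mem_KS {q : ℕ} {P : Place Kb (Fb N)} {S₁ Sl : Finset Kb} (hS : S₁ ⊆ Sl)
    (hP : ∀ σ : GQ, (∀ c ∈ KS q S₁, σ c = c) → gal N σ • P = P)
    {h : Fb N} (hh : h ∈ FKs N (KS q Sl)) {c : Kb} (hc : IsValueAt P h c) : c ∈ KS q Sl := by
  haveI : IsAlgClosure ℚ Kb := AlgebraicClosure.instIsAlgClosure ℚ
  haveI : IsGalois ℚ Kb := inferInstance
  rw [mem_KS_iff, ← InfiniteGalois.fixedField_fixingSubgroup (coeffField q Sl),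
    IntermediateField.mem_fixedField_iff]
  intro σ hσ
  have hσ' : ∀ x ∈ KS q Sl, σ x = x := fun x hx =>
    (IntermediateField.mem_fixingSubgroup_iff _ σ).mp hσ x (mem_KS_iff.mp hx)
  have hfix : gal N σ • P = P := hP σ fun x hx => hσ' x (KS_mono q hS hx)
  have hhfix : gal N σ • h = h := gal_smul_eq_of_mem_FKs (KS q Sl) hσ' hh
  have h1 := Fermat.Agent.BR.AnnulusRed.isValueAt_smul_of_fixed (gal N σ) hhfix hc
  rw [hfix, baseAut_arithmeticGalois] at h1
  exact h1.unique hc

/-- **(T2a), strong form: every place is rational over all large levels.** -/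
theorem ratLevels (M q : ℕ) [NeZero M] [Fact q.Prime] : Fermat.Agent.FF3.StepB.RatLevels M q := by
  intro P
  obtain ⟨S₁, hS₁⟩ := exists_level_fixing q P
  exact ⟨S₁, fun Sl hSl h hh c hc => isValueAt_mem_KS hSl hS₁ hh hc⟩

end Fermat.Agent.FF3.GoodRep
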