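import Mathlib
import Fermat.Agent.FF3.GoodRep.Modular
import Fermat.Agent.FF3.StepB.Top
import Fermat.Agent.FF3.StepA.OfData
import Fermat.Agent.FF3.AuxDiv.Modular
import Fermat.Agent.FF3.GoodRep.RatLevels

/-!
# Programme I, Step B assembly: four of the five named hypotheses of `StepB.torEps_of` discharged

Literals of helper22's `FF3/StepB/Defs.lean` @e7a5b7a3, at a level `M` without elliptic points:

* `goodRep_of_data Dt h2 h3 : StepB.GoodRep Dt` (T1, this directory);
* `stepAOut_of_data Dt : StepB.StepAOut Dt` (block A, helper27's `StepA.stepA_approx_of_data`);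
* `auxDiv_of_data Dt h2 h3 : StepB.AuxDiv Dt` (T2b, helper21's `AuxDiv.exists_auxDiv_setup`);
* `ratNotion Dt : StepB.RatNotion Dt := RatNotion.ofValues Dt (ratLevels M q)` (T2a, strong form,
  `ratLevels` is proved in `FF3/GoodRep/RatLevels`);
* `torEps_of_data Dt h2 h3 Rt hP : StepB.TorEps Dt` for any notion of rationality `Rt`;
* **`torEps_of_levelPacks Dt h2 h3 hP : StepB.TorEps Dt`** from the ONE remaining hypothesis
  `hP : LevelPacks Dt (ratNotion Dt)` (T3 + T4).
-/

set_option autoImplicit false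
set_option synthInstance.maxHeartbeats 400000
set_option linter.unusedSectionVars false
set_option linter.unusedVariables false
set_option linter.style.haveILetI false

namespace Fermat.Agent.FF3.GoodRep

open AlgebraicCurve ModularCurve IsLocalRing
open Fermat.Agent.Red Fermat.Agent.X0 Fermat.Agent.BR.SS
open Fermat.Agent.BR.Final Fermat.Agent.BR2 Fermat.Agent.BR2.SetupOfData

variable {M q : ℕ} [NeZero M] [hq : Fact q.Prime]
variable {B : ValuationSubring (AlgebraicClosure ℚ)} {hB : B.LiesOverPrime q} {hqM : ¬ q ∣ M}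
variable [IsAlgClosed (ResidueField B)]

/-- **(T1) = the named hypothesis `StepB.GoodRep Dt`**, at a level without elliptic points. -/
theorem goodRep_of_data (Dt : ModularData M q B hB hqM) (h2 : nuTwo M = 0) (h3 : nuThree M = 0) :
    Fermat.Agent.FF3.StepB.GoodRep Dt := by
  intro k x hx
  obtain ⟨D, f, hR, hD, hmem, hne⟩ := exists_goodRep_pow Dt h2 h3 k hx
  refine ⟨D, f, hR, hD, fun v => ⟨(setup Dt).mem_O_of_mem_Oall hmem v, ?_⟩⟩
  rw [← (setup Dt).resF_of_mem ((setup Dt).mem_O_of_mem_Oall hmem v)]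
  exact hne v

/-- **(block A) = the named hypothesis `StepB.StepAOut Dt`.** -/
theorem stepAOut_of_data (Dt : ModularData M q B hB hqM) : Fermat.Agent.FF3.StepB.StepAOut Dt := by
  intro k x hx hα hβ
  exact Fermat.Agent.FF3.StepA.stepA_approx_of_data Dt k hx hα hβ

/-- **(T2b) = the named hypothesis `StepB.AuxDiv Dt`**, at a level without elliptic points. -/
theorem auxDiv_of_data (Dt : ModularData M q B hB hqM) (h2 : nuTwo M = 0) (h3 : nuThree M = 0) :
    Fermat.Agent.FF3.StepB.AuxDiv Dt := by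
  intro D' _ hD'
  obtain ⟨E₀, E₁, h0, h1, hd, hs0, hs1, -, -, L₀, hL₀⟩ :=
    Fermat.Agent.FF3.AuxDiv.exists_auxDiv_setup Dt h2 h3 (Fermat.Agent.FF3.StepB.hdegOf Dt) D' hD'
      ∅ Set.finite_empty
  exact ⟨E₀, E₁, h0, h1, hd, hs0, hs1, L₀, hL₀⟩

/-- **(T2a) = the notion of rationality**: `Rat Sl P` = the values at `P` of the functions of the
level `Sl` are constants of the level (`StepB.RatPlace`, strong form, `ratLevels`). -/
noncomputable def ratNotion (Dt : ModularData M q B hB hqM) : Fermat.Agent.FF3.StepB.RatNotion Dt :=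
  Fermat.Agent.FF3.StepB.RatNotion.ofValues Dt (ratLevels M q)

theorem ratNotion_rat (Dt : ModularData M q B hB hqM) (Sl : Finset (AlgebraicClosure ℚ))
    (P : Place (AlgebraicClosure ℚ) (Fb (M * q))) :
    (ratNotion Dt).Rat Sl P ↔
      Fermat.Agent.FF3.StepB.RatPlace M q (Fermat.Agent.BR.Inst.Levels.KS q Sl) P := Iff.rfl

/-- **`TorEps Dt` from a notion of rationality and its level packages.** -/
theorem torEps_of_data (Dt : ModularData M q B hB hqM) (h2 : nuTwo M = 0) (h3 : nuThree M = 0)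
    (Rt : Fermat.Agent.FF3.StepB.RatNotion Dt) (hP : Fermat.Agent.FF3.StepB.LevelPacks Dt Rt) :
    Fermat.Agent.FF3.StepB.TorEps Dt :=
  Fermat.Agent.FF3.StepB.torEps_of Dt Rt (stepAOut_of_data Dt) (goodRep_of_data Dt h2 h3)
    (auxDiv_of_data Dt h2 h3) hP

/-- **`TorEps Dt` from the ONE remaining named hypothesis `LevelPacks Dt (ratNotion Dt)`**
(T3 + T4). -/
theorem torEps_of_levelPacks (Dt : ModularData M q B hB hqM) (h2 : nuTwo M = 0)
    (h3 : nuThree M = 0) (hP : Fermat.Agent.FF3.StepB.LevelPacks Dt (ratNotion Dt)) :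
    Fermat.Agent.FF3.StepB.TorEps Dt :=
  torEps_of_data Dt h2 h3 (ratNotion Dt) hP

end Fermat.Agent.FF3.GoodRep
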