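import Mathlib
import Fermat.Agent.FF3.GoodRep.StepBPlug
import Fermat.Agent.FF3.P.Defs

/-!
# Programme I: the top literal `P.TorEps Dt` of block P from `StepB.LevelPacks Dt`

`StepB.TorEps` (helper22) is a verbatim copy of `P.TorEps` (helper4, `FF3/P/Defs.lean`): the two are
definitionally equal.
-/

set_option autoImplicit false
set_option synthInstance.maxHeartbeats 400000
set_option linter.unusedSectionVars false

namespace Fermat.Agent.FF3.GoodRep

open ModularCurve IsLocalRing Fermat.Agent.BR.Final

variable {M q : ℕ} [NeZero M] [hq : Fact q.Prime]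
variable {B : ValuationSubring (AlgebraicClosure ℚ)} {hB : B.LiesOverPrime q} {hqM : ¬ q ∣ M}
variable [IsAlgClosed (ResidueField B)]

/-- the two copies of the top literal agree -/
theorem stepB_torEps_iff (Dt : ModularData M q B hB hqM) :
    Fermat.Agent.FF3.StepB.TorEps Dt ↔ Fermat.Agent.FF3.P.TorEps Dt := Iff.rfl

/-- **(I1) of block P: `P.TorEps Dt` from the one remaining named hypothesis.** -/
theorem pTorEps_of_levelPacks (Dt : ModularData M q B hB hqM) (h2 : nuTwo M = 0)
    (h3 : nuThree M = 0) (hP : Fermat.Agent.FF3.StepB.LevelPacks Dt (ratNotion Dt)) :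
    Fermat.Agent.FF3.P.TorEps Dt :=
  (stepB_torEps_iff Dt).mp (torEps_of_levelPacks Dt h2 h3 hP)

end Fermat.Agent.FF3.GoodRep
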